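import Fermat.Agent.S26.Cube.Spec
import Fermat.Agent.S26.TopPic

/-!
# Row S26, block CUBE: formal calculus of third differences (helper778)

* `thirdDiff F a b c` for a function `F : G → P` on a commutative group, the identity (4D)
  `thirdDiff_mul_left`, vanishing when an argument is `1`;
* the commutative group of `S`-valued points of an abelian variety (`ptCommGroup`);
* `theta_eq_thirdDiff`, naturality `map_theta`, and the translation of (4D) to `theta`.
-/

set_option autoImplicit false
universe u

open CategoryTheory CategoryTheory.Limits AlgebraicGeometry NeronModelInfra GoodReductionJacobian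

namespace Fermat.Agent.S26.Cube

noncomputable section

/-! ## Third differences on a commutative group -/

section Abstract

variable {G P : Type*} [CommGroup G] [AddCommGroup P] (F : G → P)

/-- The third difference of `F`. -/
def thirdDiff (a b c : G) : P :=
  F (a * b * c) - F (a * b) - F (a * c) - F (b * c) + F a + F b + F c

theorem thirdDiff_one_left (h1 : F 1 = 0) (b c : G) : thirdDiff F 1 b c = 0 := by
  simp only [thirdDiff, one_mul, h1]
  abel

theorem thirdDiff_one_mid (h1 : F 1 = 0) (a c : G) : thirdDiff F a 1 c = 0 := by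
  simp only [thirdDiff, one_mul, mul_one, h1]
  abel

theorem thirdDiff_one_right (h1 : F 1 = 0) (a b : G) : thirdDiff F a b 1 = 0 := by
  simp only [thirdDiff, mul_one, h1]
  abel

/-- The identity (4D): the fourth difference is symmetric. -/
theorem thirdDiff_mul_left (a x b c : G) :
    thirdDiff F (a * x) b c =
      thirdDiff F a b c + thirdDiff F x b c + thirdDiff F x a (b * c) - thirdDiff F x a b
        - thirdDiff F x a c := by
  have e1 : a * x * b * c = x * a * (b * c) := by
    rw [mul_comm a x, mul_assoc (x * a) b c]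
  have e2 : a * x * b = x * a * b := by rw [mul_comm a x]
  have e3 : a * x * c = x * a * c := by rw [mul_comm a x]
  have e4 : a * x = x * a := mul_comm a x
  have e5 : a * b * c = a * (b * c) := mul_assoc a b c
  have e6 : x * b * c = x * (b * c) := mul_assoc x b c
  unfold thirdDiff
  rw [e1, e2, e3, e4, e5, e6]
  abel

/-- Third differences with first argument in `H` vanish identically; `H` is a subgroup. -/
def vanishSubgroup (h1 : F 1 = 0) : Subgroup G where
  carrier := {x | ∀ b c, thirdDiff F x b c = 0}
  one_mem' := fun b c => thirdDiff_one_left F h1 b c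
  mul_mem' := by
    intro x y hx hy b c
    rw [thirdDiff_mul_left, hx b c, hy b c, hy x (b * c), hy x b, hy x c]
    abel
  inv_mem' := by
    intro x hx b c
    have h := thirdDiff_mul_left F x⁻¹ x b c
    rw [inv_mul_cancel, thirdDiff_one_left F h1, hx b c, hx _ (b * c), hx _ b, hx _ c] at h
    have : thirdDiff F x⁻¹ b c = 0 - (0 + 0 - 0 - 0) := by
      rw [h]; abel
    simpa using this

end Abstract

/-! ## Points of an abelian variety -/

section Points

variable {K : Type u} [Field K] (X : AbVar K)

/-- The commutative group of `S`-valued points. -/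
@[reducible]
def ptCommGroup {S : Scheme.{u}} (s : S ⟶ Spec (CommRingCat.of K)) :
    CommGroup (SchemeHomOver s X.str) :=
  { X.law.pointGroup s with mul_comm := fun a b => X.comm s a b }

/-- Composition with `ψ : S' ⟶ S` on points. -/
abbrev ptComp {S S' : Scheme.{u}} {s : S ⟶ Spec (CommRingCat.of K)}
    {s' : S' ⟶ Spec (CommRingCat.of K)} (ψ : S' ⟶ S) (hψ : ψ ≫ s = s')
    (a : SchemeHomOver s X.str) : SchemeHomOver s' X.str :=
  schemeHomOverComp ψ hψ a

theorem ptComp_mul {S S' : Scheme.{u}} {s : S ⟶ Spec (CommRingCat.of K)}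
    {s' : S' ⟶ Spec (CommRingCat.of K)} (ψ : S' ⟶ S) (hψ : ψ ≫ s = s')
    (a b : SchemeHomOver s X.str) :
    ptComp X ψ hψ (X.law.mul s a b) = X.law.mul s' (ptComp X ψ hψ a) (ptComp X ψ hψ b) :=
  X.law.mul_natural s s' ψ hψ a b

theorem ptComp_one {S S' : Scheme.{u}} {s : S ⟶ Spec (CommRingCat.of K)}
    {s' : S' ⟶ Spec (CommRingCat.of K)} (ψ : S' ⟶ S) (hψ : ψ ≫ s = s') :
    ptComp X ψ hψ (X.law.one s) = X.law.one s' :=
  X.law.one_natural s s' ψ hψ

/-- Two points with the same underlying morphism are equal. -/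
theorem pt_ext {S : Scheme.{u}} {s : S ⟶ Spec (CommRingCat.of K)}
    {a b : SchemeHomOver s X.str} (h : a.1 = b.1) : a = b := Subtype.ext h

end Points

/-! ## `theta` -/

section Theta

variable {K : Type u} [Field K] (T : PicTheory.{u}) (X : AbVar K)

/-- The function `u ↦ u^* M` on `S`-valued points. -/
def pull {S : Scheme.{u}} (s : S ⟶ Spec (CommRingCat.of K)) (M : T.Pic X.A)
    (a : SchemeHomOver s X.str) : T.Pic S :=
  T.map a.1 M

theorem theta_eq_thirdDiff {S : Scheme.{u}} (s : S ⟶ Spec (CommRingCat.of K))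
    (a b c : SchemeHomOver s X.str) (M : T.Pic X.A) :
    theta T X s a b c M = @thirdDiff _ _ (ptCommGroup X s) _ (pull T X s M) a b c := rfl

theorem pull_one (hT : T.IsLocal) {S : Scheme.{u}} (s : S ⟶ Spec (CommRingCat.of K))
    (M : T.Pic X.A) : pull T X s M (X.law.one s) = 0 :=
  map_one_eq_zero hT s M

theorem cube_iff [IsAlgClosed K] :
    Stmt.Cube T K ↔ ∀ (X : AbVar K) {S : Scheme.{u}} (s : S ⟶ Spec (CommRingCat.of K))
      (a b c : SchemeHomOver s X.str) (M : T.Pic X.A), theta T X s a b c M = 0 := Iff.rfl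

variable {T X}

theorem theta_one_left (hT : T.IsLocal) {S : Scheme.{u}} (s : S ⟶ Spec (CommRingCat.of K))
    (b c : SchemeHomOver s X.str) (M : T.Pic X.A) : theta T X s (X.law.one s) b c M = 0 :=
  @thirdDiff_one_left _ _ (ptCommGroup X s) _ (pull T X s M) (pull_one T X hT s M) b c

theorem theta_one_mid (hT : T.IsLocal) {S : Scheme.{u}} (s : S ⟶ Spec (CommRingCat.of K))
    (a c : SchemeHomOver s X.str) (M : T.Pic X.A) : theta T X s a (X.law.one s) c M = 0 :=
  @thirdDiff_one_mid _ _ (ptCommGroup X s) _ (pull T X s M) (pull_one T X hT s M) a c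

theorem theta_one_right (hT : T.IsLocal) {S : Scheme.{u}} (s : S ⟶ Spec (CommRingCat.of K))
    (a b : SchemeHomOver s X.str) (M : T.Pic X.A) : theta T X s a b (X.law.one s) M = 0 :=
  @thirdDiff_one_right _ _ (ptCommGroup X s) _ (pull T X s M) (pull_one T X hT s M) a b

/-- (4D) for `theta`. -/
theorem theta_mul_left {S : Scheme.{u}} (s : S ⟶ Spec (CommRingCat.of K))
    (a x b c : SchemeHomOver s X.str) (M : T.Pic X.A) :
    theta T X s (X.law.mul s a x) b c M =
      theta T X s a b c M + theta T X s x b c M + theta T X s x a (X.law.mul s b c) M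
        - theta T X s x a b M - theta T X s x a c M :=
  @thirdDiff_mul_left _ _ (ptCommGroup X s) _ (pull T X s M) a x b c

/-- Naturality of `theta`. -/
theorem map_theta {S S' : Scheme.{u}} {s : S ⟶ Spec (CommRingCat.of K)}
    {s' : S' ⟶ Spec (CommRingCat.of K)} (ψ : S' ⟶ S) (hψ : ψ ≫ s = s')
    (a b c : SchemeHomOver s X.str) (M : T.Pic X.A) :
    T.map ψ (theta T X s a b c M) =
      theta T X s' (ptComp X ψ hψ a) (ptComp X ψ hψ b) (ptComp X ψ hψ c) M := by
  simp only [theta, map_sub, map_add, ← T.map_comp]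
  rw [← ptComp_mul, ← ptComp_mul, ← ptComp_mul, ← ptComp_mul]
  rfl

/-- `theta` only depends on the underlying morphisms of the points. -/
theorem theta_congr {S : Scheme.{u}} {s : S ⟶ Spec (CommRingCat.of K)}
    {a a' b b' c c' : SchemeHomOver s X.str} (ha : a.1 = a'.1) (hb : b.1 = b'.1)
    (hc : c.1 = c'.1) (M : T.Pic X.A) : theta T X s a b c M = theta T X s a' b' c' M := by
  rw [pt_ext X ha, pt_ext X hb, pt_ext X hc]

end Theta

end

end Fermat.Agent.S26.Cube
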