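import Fermat.Agent.S26.Cube.Spec
import Fermat.Agent.S26.H687.CurveCube

/-!
# Row S26, block CUBE, leaf C1 in the interface of `Cube/Spec.lean` (subtask 579; helper206)

`curveCube T K : S25Statement → ModDict T → Rigidity K → CurveCube T K`.

The mathematical content is helper687's `H687.curveCube` (classifying map to the Jacobian +
rigidity, proved for the interface `SpecCube.lean`); this file is the adapter to the interface
of `Cube/Spec.lean` (helper778): conversion of the dictionaries (`modDict687`) and identification
of the three faces (`face1_eq`, `face2_eq`, `face3_eq`).  The hypothesis `Rigidity K` is not used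
(`H687.curveCube` uses the proved rigidity lemma `H686.rigidity_const`).
-/

set_option autoImplicit false
universe u

open CategoryTheory CategoryTheory.Limits AlgebraicGeometry AlgebraicGeometry.RelPicard
  NeronModelInfra GoodReductionJacobian

namespace Fermat.Agent.S26.Cube.CurveCubeH206

noncomputable section

/-- A dictionary in the sense of `Cube/Spec.lean` gives one in the sense of `H687`. -/
def modDict687 {T : PicTheory.{u}} (d : Cube.ModDict T) : H687.ModDict T where
  Rep c L := ∃ hL : Scheme.Modules.IsInvertible L, d.cl L hL = c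
  exists_rep c := by
    obtain ⟨L, hL, h⟩ := d.cl_surj c
    exact ⟨L, hL, hL, h⟩
  rep_zero_iff c L := by
    rintro ⟨hL, rfl⟩
    constructor
    · intro h
      exact (d.cl_eq_iff L _ hL (Scheme.Modules.isInvertible_unit _)).1
        (h.trans (d.cl_unit _).symm)
    · intro e
      exact ((d.cl_eq_iff L _ hL (Scheme.Modules.isInvertible_unit _)).2 e).trans (d.cl_unit _)
  rep_pullback f c L := by
    rintro ⟨hL, rfl⟩
    exact ⟨hL.pullback f, d.cl_pullback f L hL⟩

section Faces

variable {K : Type u} [Field K] {C Y Z : Scheme.{u}} (c : C ⟶ Spec (CommRingCat.of K))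
  (y : Y ⟶ Spec (CommRingCat.of K)) (z : Z ⟶ Spec (CommRingCat.of K))

theorem face1_eq (c0 : SchemeHomOver (𝟙 (Spec (CommRingCat.of K))) c) :
    Cube.face1 c y z c0 = S26.inr c (S26.prodStr y z) c0 := rfl

theorem face2_eq (y0 : SchemeHomOver (𝟙 (Spec (CommRingCat.of K))) y) :
    Cube.face2 c y z y0 =
      S26.prodMapRight c z (S26.prodStr y z) (S26.inr y z y0) (S26.inr_prodStr y z y0) := by
  apply pullback.hom_ext
  · rw [Cube.face2, S26.prodMapRight, pullback.lift_fst, pullback.map, pullback.lift_fst,
      Category.comp_id]
  · rw [Cube.face2, S26.prodMapRight, pullback.lift_snd, pullback.map, pullback.lift_snd,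
      S26.inr]
    apply pullback.hom_ext
    · rw [pullback.lift_fst, Category.assoc, pullback.lift_fst]
    · rw [pullback.lift_snd, Category.assoc, pullback.lift_snd, Category.comp_id]

theorem face3_eq (z0 : SchemeHomOver (𝟙 (Spec (CommRingCat.of K))) z) :
    Cube.face3 c y z z0 =
      S26.prodMapRight c y (S26.prodStr y z) (S26.inl y z z0) (S26.inl_prodStr y z z0) := by
  apply pullback.hom_ext
  · rw [Cube.face3, S26.prodMapRight, pullback.lift_fst, pullback.map, pullback.lift_fst,
      Category.comp_id]
  · rw [Cube.face3, S26.prodMapRight, pullback.lift_snd, pullback.map, pullback.lift_snd,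
      S26.inl]
    apply pullback.hom_ext
    · rw [pullback.lift_fst, Category.assoc, pullback.lift_fst, Category.comp_id]
    · rw [pullback.lift_snd, Category.assoc, pullback.lift_snd]

end Faces

/-- **C1** in the interface of `Cube/Spec.lean`. -/
theorem curveCube (T : PicTheory.{u}) (K : Type u) [Field K] [IsAlgClosed K] :
    Cube.S25Statement.{u} → Cube.ModDict T → Cube.Rigidity K → Cube.CurveCube T K := by
  intro hS25 d _ C Y Z c y z _ _ _ _ _ _ _ c0 y0 z0 N h1 h2 h3
  refine H687.curveCube hS25 T (modDict687 d) K C c c0 Y Z y z y0 z0 N ?_ ?_ ?_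
  · rw [← face1_eq]; exact h1
  · rw [← face2_eq]; exact h2
  · rw [← face3_eq]; exact h3

end

end Fermat.Agent.S26.Cube.CurveCubeH206
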