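import Fermat.Agent.S26.Cube.GlueSquare

/-!
# Row S26, block CUBE, glue (G2), (G3) (helper778)

* `geometricallyIntegral_prodStr` : `Y ×_K Z` is geometrically integral;
* `squareField_of` (G2) : `BaseChangeExists K → (∀ F, SquareK T F) → SquareField T K`;
* `cube_of` (G3) : `SquareK + SquareField + SeesawLocal + GenericSpread + Cover + GeomIntegral +
  Stmt.Integral ⇒ Stmt.Cube T K`;
* `cube_of_leaves` : the block CUBE from its leaves.
-/

set_option autoImplicit false
universe u

open CategoryTheory CategoryTheory.Limits AlgebraicGeometry NeronModelInfra GoodReductionJacobian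

namespace Fermat.Agent.S26.Cube

noncomputable section

variable {K : Type u} [Field K] {T : PicTheory.{u}}

/-! ## Geometric integrality of products -/

theorem geometricallyIntegral_comp {X Y Z : Scheme.{u}} (f : X ⟶ Y) (g : Y ⟶ Z)
    [GeometricallyIntegral f] [GeometricallyIntegral g] [Flat f] [UniversallyOpen f]
    [UniversallyOpen g] [LocallyOfFiniteType g] : GeometricallyIntegral (f ≫ g) := by
  have h1 : GeometricallyIrreducible (f ≫ g) := GeometricallyIrreducible.comp f g
  have h2 : GeometricallyReduced (f ≫ g) := by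
    refine ⟨geometrically_iff_of_isClosedUnderIsomorphisms.mpr fun L _ x ↦ ?_⟩
    have : IsLocallyNoetherian (pullback g x) :=
      LocallyOfFiniteType.isLocallyNoetherian (pullback.snd g x)
    have : IsReduced (pullback g x) :=
      GeometricallyReduced.geometrically_isReduced _ _ _ (.of_hasPullback _ _)
    exact isReduced_of_isOpenImmersion (pullbackRightPullbackFstIso g x f).inv
  exact GeometricallyIntegral.of_geometricallyReduced_of_geometricallyIrreducible _

theorem geometricallyIntegral_prodStr {Y Z : Scheme.{u}} (y : Y ⟶ Spec (CommRingCat.of K))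
    (z : Z ⟶ Spec (CommRingCat.of K)) [GeometricallyIntegral y] [GeometricallyIntegral z]
    [LocallyOfFiniteType y] : GeometricallyIntegral (prodStr y z) :=
  geometricallyIntegral_comp (pullback.fst y z) y

/-! ## (G2) -/

section G2

theorem theta_eq_of_push {F : Type u} [Field F] (X : AbVar K) (X' : AbVar F)
    (ψ : Spec (CommRingCat.of F) ⟶ Spec (CommRingCat.of K)) (π : X'.A ⟶ X.A)
    (hπ : π ≫ X.str = X'.str ≫ ψ)
    (hmul : ∀ {S : Scheme.{u}} (σ : S ⟶ Spec (CommRingCat.of F)) (a b : SchemeHomOver σ X'.str),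
      (X'.law.mul σ a b).1 ≫ π =
        (X.law.mul (σ ≫ ψ) ⟨a.1 ≫ π, by rw [Category.assoc, hπ, ← Category.assoc, a.2]⟩
          ⟨b.1 ≫ π, by rw [Category.assoc, hπ, ← Category.assoc, b.2]⟩).1)
    {S : Scheme.{u}} (σ : S ⟶ Spec (CommRingCat.of F)) (a' b' c' : SchemeHomOver σ X'.str)
    (a b c : SchemeHomOver (σ ≫ ψ) X.str) (ha : a'.1 ≫ π = a.1) (hb : b'.1 ≫ π = b.1)
    (hc : c'.1 ≫ π = c.1) (M : T.Pic X.A) :
    theta T X' σ a' b' c' (T.map π M) = theta T X (σ ≫ ψ) a b c M := by
  have push : ∀ (u' v' : SchemeHomOver σ X'.str) (u v : SchemeHomOver (σ ≫ ψ) X.str),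
      u'.1 ≫ π = u.1 → v'.1 ≫ π = v.1 → (X'.law.mul σ u' v').1 ≫ π = (X.law.mul (σ ≫ ψ) u v).1 := by
    intro u' v' u v hu hv
    rw [hmul σ u' v']
    congr 2 <;> exact Subtype.ext (by assumption)
  simp only [theta, ← T.map_comp]
  rw [push _ _ _ _ (push _ _ _ _ ha hb) hc, push _ _ _ _ ha hb, push _ _ _ _ ha hc,
    push _ _ _ _ hb hc, ha, hb, hc]

/-- (G2) The theorem of the square at field valued points, by base change. -/
theorem squareField_of [IsAlgClosed K] (hBC : BaseChangeExists K)
    (hSq : ∀ (F : Type u) [Field F] [IsAlgClosed F], SquareK T F) : SquareField T K := by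
  intro X M F _ _ ψ x S σ b c
  obtain ⟨X', π, hπ, hpb, hmul⟩ := hBC X F ψ
  -- lifting points to `X'`
  have hx : x.1 ≫ X.str = 𝟙 _ ≫ ψ := by rw [x.2, Category.id_comp]
  let x' : X'.Pt := ⟨hpb.lift x.1 (𝟙 _) hx, hpb.lift_snd _ _ _⟩
  let b' : SchemeHomOver σ X'.str := ⟨hpb.lift b.1 σ b.2, hpb.lift_snd _ _ _⟩
  let c' : SchemeHomOver σ X'.str := ⟨hpb.lift c.1 σ c.2, hpb.lift_snd _ _ _⟩
  have hx' : (X'.const σ x').1 ≫ π = (schemeHomOverComp σ rfl x : SchemeHomOver (σ ≫ ψ) X.str).1 := by
    rw [AbVar.const_coe, Category.assoc, schemeHomOverComp_coe]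
    congr 1
    exact hpb.lift_fst _ _ _
  have hb' : b'.1 ≫ π = b.1 := hpb.lift_fst _ _ _
  have hc' : c'.1 ≫ π = c.1 := hpb.lift_fst _ _ _
  rw [← theta_eq_of_push X X' ψ π hπ hmul σ (X'.const σ x') b' c' _ b c hx' hb' hc' M]
  exact hSq F X' (T.map π M) x' σ b' c'

end G2

/-! ## Naturality of the family `thetaFam` -/

section Fam

variable (X : AbVar K)

/-- `φ × 1 : S' ×_K W ⟶ S ×_K W` for `φ : S' ⟶ S` over `Spec K`. -/
def prodMapOver {S' S W : Scheme.{u}} (φ : S' ⟶ S) (s : S ⟶ Spec (CommRingCat.of K))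
    (s' : S' ⟶ Spec (CommRingCat.of K)) (hφ : φ ≫ s = s')
    (w : W ⟶ Spec (CommRingCat.of K)) : pullback s' w ⟶ pullback s w :=
  pullback.map s' w s w φ (𝟙 W) (𝟙 _) (by rw [Category.comp_id, hφ]) (by simp)

theorem prodMap_eq {S' S W : Scheme.{u}} (φ : S' ⟶ S) (s : S ⟶ Spec (CommRingCat.of K))
    (w : W ⟶ Spec (CommRingCat.of K)) : prodMap φ s w = prodMapOver φ s (φ ≫ s) rfl w := rfl

variable {X}

theorem map_thetaFam {S S' : Scheme.{u}} (s : S ⟶ Spec (CommRingCat.of K))
    (s' : S' ⟶ Spec (CommRingCat.of K)) (φ : S' ⟶ S) (hφ : φ ≫ s = s')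
    (a : SchemeHomOver s X.str) (M : T.Pic X.A) :
    T.map (prodMapOver φ s s' hφ (prodStr X.str X.str)) (thetaFam X T s a M) =
      thetaFam X T s' (ptComp X φ hφ a) M := by
  have hψ : prodMapOver φ s s' hφ (prodStr X.str X.str) ≫
      (pullback.fst s (prodStr X.str X.str) ≫ s) =
      pullback.fst s' (prodStr X.str X.str) ≫ s' := by
    rw [← Category.assoc, prodMapOver, pullback.lift_fst, Category.assoc, hφ]
  rw [thetaFam, map_theta _ hψ, thetaFam]
  apply theta_congr
  · simp only [ptComp, schemeHomOverComp_coe, prodMapOver]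
    rw [← Category.assoc, pullback.lift_fst, Category.assoc]
  · simp only [ptComp, schemeHomOverComp_coe, ptB, prodMapOver]
    rw [← Category.assoc, pullback.lift_snd, Category.comp_id]
  · simp only [ptComp, schemeHomOverComp_coe, ptC, prodMapOver]
    rw [← Category.assoc, pullback.lift_snd, Category.comp_id]

theorem thetaFam_congr {S : Scheme.{u}} (s : S ⟶ Spec (CommRingCat.of K))
    {a a' : SchemeHomOver s X.str} (h : a.1 = a'.1) (M : T.Pic X.A) :
    thetaFam X T s a M = thetaFam X T s a' M := by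
  rw [pt_ext X h]

/-- Translation invariance of the family (from the theorem of the square). -/
theorem thetaFam_mul_const [IsAlgClosed K] (hSK : SquareK T K) {S : Scheme.{u}}
    (s : S ⟶ Spec (CommRingCat.of K)) (a : SchemeHomOver s X.str) (x : X.Pt) (M : T.Pic X.A) :
    thetaFam X T s (X.law.mul s a (X.const s x)) M = thetaFam X T s a M := by
  have h1 : ptComp X (pullback.fst s (prodStr X.str X.str)) rfl (X.law.mul s a (X.const s x)) =
      X.law.mul _ (ptComp X (pullback.fst s (prodStr X.str X.str)) rfl a) (X.const _ x) := by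
    rw [ptComp_mul]
    congr 1
  rw [thetaFam, h1, theta_mul_left, hSK X M x, hSK X M x, hSK X M x, hSK X M x, thetaFam]
  abel

end Fam

/-! ## (G3) -/

section G3

variable [IsAlgClosed K]

/-- The geometric generic point of an integral scheme. -/
def geomGenericPoint (A : Scheme.{u}) [IsIntegral A] :
    Spec (CommRingCat.of (AlgebraicClosure A.functionField)) ⟶ A :=
  Spec.map (CommRingCat.ofHom (algebraMap A.functionField (AlgebraicClosure A.functionField))) ≫
    A.fromSpecStalk (genericPoint A)

theorem geomGenericPoint_apply (A : Scheme.{u}) [IsIntegral A]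
    (pt : Spec (CommRingCat.of (AlgebraicClosure A.functionField))) :
    geomGenericPoint A pt = genericPoint A := by
  have h : ∀ q : Spec (A.presheaf.stalk (genericPoint A)),
      A.fromSpecStalk (genericPoint A) q = genericPoint A := by
    intro q
    have hq : q = IsLocalRing.closedPoint (A.presheaf.stalk (genericPoint A)) :=
      Subsingleton.elim (h := (inferInstance : Subsingleton (PrimeSpectrum A.functionField))) _ _
    rw [hq]
    exact Scheme.fromSpecStalk_closedPoint
  rw [geomGenericPoint, Scheme.Hom.comp_apply]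
  exact h _

/-- The universal third difference vanishes over a nonempty open subset. -/
theorem exists_open_thetaFam_eq_zero (hSF : SquareField T K) (hP5 : GenericSpread T K)
    (hGI : GeomIntegral K) (hInt : Stmt.Integral K) (X : AbVar K) (M : T.Pic X.A) :
    ∃ U : X.A.Opens, (U : Set X.A).Nonempty ∧
      T.map (prodMap U.ι X.str (prodStr X.str X.str))
        (thetaFam X T X.str RelativeGroupLaw.idPoint M) = 0 := by
  haveI : IsProper X.str := X.bundle.proper
  haveI : GeometricallyIntegral X.str := hGI X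
  haveI : IsIntegral X.A := hInt X
  haveI : GeometricallyIntegral (prodStr X.str X.str) := geometricallyIntegral_prodStr _ _
  refine hP5 X.str (prodStr X.str X.str) _ (AlgebraicClosure X.A.functionField)
    (geomGenericPoint X.A) (geomGenericPoint_apply X.A) ?_
  rw [prodMap_eq, map_thetaFam, thetaFam]
  set φ := geomGenericPoint X.A with hφ
  have key := hSF X M (AlgebraicClosure X.A.functionField) (φ ≫ X.str) ⟨φ, rfl⟩
    (pullback.fst (φ ≫ X.str) (prodStr X.str X.str)) (ptB X (φ ≫ X.str)) (ptC X (φ ≫ X.str))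
  rw [← key]
  apply theta_congr
  · simp only [ptComp, schemeHomOverComp_coe, Category.comp_id]
  · rfl
  · rfl

/-- The universal third difference vanishes. -/
theorem thetaFam_id_eq_zero (hT : T.IsLocal) (hSK : SquareK T K) (hSF : SquareField T K)
    (hP4 : SeesawLocal T K) (hP5 : GenericSpread T K) (hCov : Cover K) (hGI : GeomIntegral K)
    (hInt : Stmt.Integral K) (X : AbVar K) (M : T.Pic X.A) :
    thetaFam X T X.str RelativeGroupLaw.idPoint M = 0 := by
  haveI : IsProper X.str := X.bundle.proper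
  haveI : GeometricallyIntegral X.str := hGI X
  haveI : GeometricallyIntegral (prodStr X.str X.str) := geometricallyIntegral_prodStr _ _
  obtain ⟨U, hU, hU0⟩ := exists_open_thetaFam_eq_zero hSF hP5 hGI hInt X M
  set Θ := thetaFam X T X.str RelativeGroupLaw.idPoint M with hΘ
  -- the translates of `U` cover `A`
  have hcover : ∀ a : X.A, ∃ V : X.A.Opens, a ∈ V ∧
      T.map (prodMap V.ι X.str (prodStr X.str X.str)) Θ = 0 := by
    intro a
    obtain ⟨x, hx⟩ := hCov X U hU a
    refine ⟨(X.transl x) ⁻¹ᵁ U, hx, ?_⟩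
    set V : X.A.Opens := (X.transl x) ⁻¹ᵁ U with hV
    have htr : X.transl x ≫ X.str = X.str :=
      (X.law.mul X.str RelativeGroupLaw.idPoint (X.const X.str x)).2
    have hτ : (X.transl x ∣_ U) ≫ (U.ι ≫ X.str) = V.ι ≫ X.str := by
      rw [← Category.assoc, morphismRestrict_ι, Category.assoc, htr]
    -- step 1: restrict to `V`
    rw [prodMap_eq, hΘ, map_thetaFam]
    -- step 2: translation invariance
    rw [← thetaFam_mul_const hSK (V.ι ≫ X.str) _ x M]
    -- step 3: the translated point factors through `U`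
    have hpt : (X.law.mul (V.ι ≫ X.str) (ptComp X V.ι rfl RelativeGroupLaw.idPoint)
        (X.const (V.ι ≫ X.str) x)).1 =
        (ptComp X (X.transl x ∣_ U) hτ (ptComp X U.ι rfl RelativeGroupLaw.idPoint)).1 := by
      have h1 : X.law.mul (V.ι ≫ X.str) (ptComp X V.ι rfl RelativeGroupLaw.idPoint)
          (X.const (V.ι ≫ X.str) x) =
          ptComp X V.ι rfl (X.law.mul X.str RelativeGroupLaw.idPoint (X.const X.str x)) := by
        rw [ptComp_mul]
        congr 1
      rw [h1]
      simp only [ptComp, schemeHomOverComp_coe, Category.comp_id]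
      exact (morphismRestrict_ι (X.transl x) U).symm
    rw [thetaFam_congr _ hpt, ← map_thetaFam (U.ι ≫ X.str) (V.ι ≫ X.str) (X.transl x ∣_ U) hτ,
      ← map_thetaFam X.str (U.ι ≫ X.str) U.ι rfl, ← prodMap_eq, ← hΘ, hU0, map_zero]
  -- seesaw
  have hsee := hP4 X.str (prodStr X.str X.str) (pairPt X.zero X.zero) Θ hcover
  have hsec : T.map (sectionAt X.str (prodStr X.str X.str) (pairPt X.zero X.zero)) Θ = 0 := by
    have hψ : sectionAt X.str (prodStr X.str X.str) (pairPt X.zero X.zero) ≫
        (pullback.fst X.str (prodStr X.str X.str) ≫ X.str) = X.str := by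
      rw [← Category.assoc, sectionAt, pullback.lift_fst, Category.id_comp]
    rw [hΘ, thetaFam, map_theta _ hψ]
    have : ptComp X (sectionAt X.str (prodStr X.str X.str) (pairPt X.zero X.zero)) hψ
        (ptB X X.str) = X.law.one _ := by
      rw [← const_zero]
      apply Subtype.ext
      simp only [ptComp, schemeHomOverComp_coe, AbVar.const_coe, sectionAt, ptB, pairPt]
      rw [← Category.assoc, pullback.lift_snd, Category.assoc, pullback.lift_fst]
    rw [this]
    exact theta_one_mid hT _ _ _ M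
  rw [hsee, hsec, map_zero]

/-- (G3) The theorem of the cube. -/
theorem cube_of (hT : T.IsLocal) (hSK : SquareK T K) (hSF : SquareField T K)
    (hP4 : SeesawLocal T K) (hP5 : GenericSpread T K) (hCov : Cover K) (hGI : GeomIntegral K)
    (hInt : Stmt.Integral K) : Stmt.Cube T K := by
  intro X S s a b c M
  show theta T X s a b c M = 0
  have h0 := thetaFam_id_eq_zero hT hSK hSF hP4 hP5 hCov hGI hInt X M
  have h1 : thetaFam X T s a M = 0 := by
    have h2 := map_thetaFam (T := T) X.str s a.1 a.2 RelativeGroupLaw.idPoint M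
    rw [h0, map_zero] at h2
    rw [h2]
    apply thetaFam_congr
    simp only [ptComp, schemeHomOverComp_coe, Category.comp_id]
  rw [theta_eq_map_thetaFam, h1, map_zero]

end G3

/-! ## The block -/

/-- **Block CUBE from its leaves.** -/
theorem cube_of_leaves (hT : T.IsLocal)
    (hCC : ∀ (F : Type u) [Field F] [IsAlgClosed F], CurveCube T F)
    (hCG : ∀ (F : Type u) [Field F] [IsAlgClosed F], CurvesGenerate F)
    (hGI : ∀ (F : Type u) [Field F] [IsAlgClosed F], GeomIntegral F)
    (hBC : ∀ (F : Type u) [Field F] [IsAlgClosed F], BaseChangeExists F)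
    (hP4 : ∀ (F : Type u) [Field F] [IsAlgClosed F], SeesawLocal T F)
    (hP5 : ∀ (F : Type u) [Field F] [IsAlgClosed F], GenericSpread T F)
    (hCov : ∀ (F : Type u) [Field F] [IsAlgClosed F], Cover F)
    (hInt : ∀ (F : Type u) [Field F] [IsAlgClosed F], Stmt.Integral F)
    (K : Type u) [Field K] [IsAlgClosed K] : Stmt.Cube T K := by
  have hSK : ∀ (F : Type u) [Field F] [IsAlgClosed F], SquareK T F := fun F _ _ =>
    squareK_of hT (hCC F) (hCG F) (hGI F)
  exact cube_of hT (hSK K) (squareField_of (hBC K) hSK) (hP4 K) (hP5 K) (hCov K) (hGI K) (hInt K)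

end

end Fermat.Agent.S26.Cube
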