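import Fermat.Agent.S26.Cube.Calc

/-!
# Row S26, block CUBE, glue (G1): the theorem of the square (helper778)

`squareK_of : T.IsLocal → CurveCube T K → CurvesGenerate K → GeomIntegral K → SquareK T K`.
-/

set_option autoImplicit false
universe u

open CategoryTheory CategoryTheory.Limits AlgebraicGeometry NeronModelInfra GoodReductionJacobian

namespace Fermat.Agent.S26.Cube

noncomputable section

variable {K : Type u} [Field K] {T : PicTheory.{u}}

/-! ## Constant points -/

section Const

variable (X : AbVar K)

theorem const_inv {S : Scheme.{u}} (s : S ⟶ Spec (CommRingCat.of K)) (x : X.Pt) :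
    X.const s (X.law.inv (𝟙 (Spec (CommRingCat.of K))) x) = X.law.inv s (X.const s x) := by
  letI := X.law.pointGroup s
  have h : X.law.mul s (X.const s x) (X.const s (X.law.inv (𝟙 _) x)) = X.law.one s := by
    rw [AbVar.const_mul, X.law.mul_inv_cancel, AbVar.const_one]
  exact eq_inv_of_mul_eq_one_right h

theorem const_zero {S : Scheme.{u}} (s : S ⟶ Spec (CommRingCat.of K)) :
    X.const s X.zero = X.law.one s :=
  AbVar.const_one X s

end Const

/-! ## The subgroup `H` -/

/-- `x ∈ H` iff all third differences with first argument the constant point `x` vanish. -/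
def squareSet (T : PicTheory.{u}) (X : AbVar K) (M : T.Pic X.A) : Set X.Pt :=
  {x | ∀ {S : Scheme.{u}} (s : S ⟶ Spec (CommRingCat.of K)) (b c : SchemeHomOver s X.str),
    theta T X s (X.const s x) b c M = 0}

/-- `H` as a subgroup of `A(K)`. -/
def squareSubgroup (hT : T.IsLocal) (X : AbVar K) (M : T.Pic X.A) :
    @Subgroup X.Pt (X.law.pointGroup (𝟙 (Spec (CommRingCat.of K)))) :=
  letI := X.law.pointGroup (𝟙 (Spec (CommRingCat.of K)))
  { carrier := squareSet T X M
    one_mem' := by
      intro S s b c
      have : X.const s (1 : X.Pt) = X.law.one s := AbVar.const_one X s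
      rw [this]
      exact theta_one_left hT s b c M
    mul_mem' := by
      intro x y hx hy S s b c
      have : X.const s (x * y) = X.law.mul s (X.const s x) (X.const s y) :=
        (AbVar.const_mul X s x y).symm
      rw [this, theta_mul_left, hx s b c, hy s b c, hy s _ _, hy s _ b, hy s _ c]
      abel
    inv_mem' := by
      intro x hx S s b c
      have h := theta_mul_left (T := T) s (X.const s (X.law.inv (𝟙 _) x)) (X.const s x) b c M
      have h1 : X.law.mul s (X.const s (X.law.inv (𝟙 _) x)) (X.const s x) = X.law.one s := by
        rw [AbVar.const_mul, X.law.inv_mul_cancel, AbVar.const_one]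
      rw [h1, theta_one_left hT, hx s b c, hx s _ _, hx s _ b, hx s _ c] at h
      have h2 : theta T X s (X.const s (X.law.inv (𝟙 _) x)) b c M = 0 := by
        have := h.symm
        simpa using this
      exact h2 }

/-! ## Curves -/

section Curve

variable (X : AbVar K)

/-- `p₁ ∘ pr_W` as a point of `A` with values in `S × (A × A)`. -/
def ptB {S : Scheme.{u}} (s : S ⟶ Spec (CommRingCat.of K)) :
    SchemeHomOver (pullback.fst s (prodStr X.str X.str) ≫ s) X.str :=
  ⟨pullback.snd s (prodStr X.str X.str) ≫ pullback.fst X.str X.str, by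
    rw [Category.assoc]; exact pullback.condition.symm⟩

/-- `p₂ ∘ pr_W` as a point of `A` with values in `S × (A × A)`. -/
def ptC {S : Scheme.{u}} (s : S ⟶ Spec (CommRingCat.of K)) :
    SchemeHomOver (pullback.fst s (prodStr X.str X.str) ≫ s) X.str :=
  ⟨pullback.snd s (prodStr X.str X.str) ≫ pullback.snd X.str X.str, by
    rw [Category.assoc, ← pullback.condition (f := X.str) (g := X.str)]
    exact pullback.condition.symm⟩

/-- The family of third differences `Θ(a ∘ pr_S, p₁, p₂)` on `S × (A × A)`. -/
def thetaFam (T : PicTheory.{u}) {S : Scheme.{u}} (s : S ⟶ Spec (CommRingCat.of K))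
    (a : SchemeHomOver s X.str) (M : T.Pic X.A) : T.Pic (pullback s (prodStr X.str X.str)) :=
  theta T X (pullback.fst s (prodStr X.str X.str) ≫ s)
    (ptComp X (pullback.fst s (prodStr X.str X.str)) rfl a) (ptB X s) (ptC X s) M

/-- The morphism `(1, (b, c)) : S ⟶ S × (A × A)`. -/
def tripleMap {S : Scheme.{u}} (s : S ⟶ Spec (CommRingCat.of K)) (b c : SchemeHomOver s X.str) :
    S ⟶ pullback s (prodStr X.str X.str) :=
  pullback.lift (𝟙 S) (pullback.lift b.1 c.1 (by rw [b.2, c.2]))
    (by rw [Category.id_comp, ← Category.assoc, pullback.lift_fst, b.2])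

variable {X}

/-- Every third difference is a pull-back of the family `thetaFam`. -/
theorem theta_eq_map_thetaFam {S : Scheme.{u}} (s : S ⟶ Spec (CommRingCat.of K))
    (a b c : SchemeHomOver s X.str) (M : T.Pic X.A) :
    theta T X s a b c M = T.map (tripleMap X s b c) (thetaFam X T s a M) := by
  have hψ : tripleMap X s b c ≫ (pullback.fst s (prodStr X.str X.str) ≫ s) = s := by
    rw [← Category.assoc, tripleMap, pullback.lift_fst, Category.id_comp]
  rw [thetaFam, map_theta (tripleMap X s b c) hψ]
  apply theta_congr
  · show a.1 = tripleMap X s b c ≫ pullback.fst _ _ ≫ a.1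
    rw [tripleMap, pullback.lift_fst_assoc, Category.id_comp]
  · show b.1 = tripleMap X s b c ≫ pullback.snd _ _ ≫ pullback.fst _ _
    rw [tripleMap, pullback.lift_snd_assoc, pullback.lift_fst]
  · show c.1 = tripleMap X s b c ≫ pullback.snd _ _ ≫ pullback.snd _ _
    rw [tripleMap, pullback.lift_snd_assoc, pullback.lift_snd]

end Curve

/-! ## (G1) -/

variable [IsAlgClosed K]

theorem curvePoints_subset (hT : T.IsLocal) (hCC : CurveCube T K) (hGI : GeomIntegral K)
    (X : AbVar K) (M : T.Pic X.A) : curvePoints X ⊆ squareSet T X M := by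
  rintro x ⟨C, c, _, _, _, c0, c1, ι, h0, h1⟩ S s b d
  haveI : IsProper X.str := X.bundle.proper
  haveI : GeometricallyIntegral X.str := hGI X
  have h0' : c0.1 ≫ ι.1 = X.zero.1 := congrArg Subtype.val h0
  have h1' : c1.1 ≫ ι.1 = x.1 := congrArg Subtype.val h1
  -- the class on `C × (A × A)`
  set N := thetaFam X T c ι M with hN
  have hface1 : T.map (face1 c X.str X.str c0) N = 0 := by
    have hψ : face1 c X.str X.str c0 ≫ (pullback.fst c (prodStr X.str X.str) ≫ c) =
        prodStr X.str X.str := by
      rw [← Category.assoc, face1, pullback.lift_fst, Category.assoc, c0.2, Category.comp_id]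
    rw [hN, thetaFam, map_theta _ hψ]
    have : ptComp X (face1 c X.str X.str c0) hψ
        (ptComp X (pullback.fst c (prodStr X.str X.str)) rfl ι) = X.law.one _ := by
      rw [← const_zero]
      apply Subtype.ext
      simp only [ptComp, schemeHomOverComp_coe, AbVar.const_coe, face1]
      rw [← Category.assoc, pullback.lift_fst, Category.assoc, h0']
    rw [this]
    exact theta_one_left hT _ _ _ M
  have hface2 : T.map (face2 c X.str X.str X.zero) N = 0 := by
    have hψ : face2 c X.str X.str X.zero ≫ (pullback.fst c (prodStr X.str X.str) ≫ c) =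
        pullback.fst c X.str ≫ c := by
      rw [← Category.assoc, face2, pullback.lift_fst]
    rw [hN, thetaFam, map_theta _ hψ]
    have : ptComp X (face2 c X.str X.str X.zero) hψ (ptB X c) = X.law.one _ := by
      rw [← const_zero]
      apply Subtype.ext
      simp only [ptComp, schemeHomOverComp_coe, AbVar.const_coe, face2, ptB]
      rw [← Category.assoc, pullback.lift_snd, pullback.lift_fst,
        ← Category.assoc (pullback.snd c X.str), ← pullback.condition]
    rw [this]
    exact theta_one_mid hT _ _ _ M
  have hface3 : T.map (face3 c X.str X.str X.zero) N = 0 := by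
    have hψ : face3 c X.str X.str X.zero ≫ (pullback.fst c (prodStr X.str X.str) ≫ c) =
        pullback.fst c X.str ≫ c := by
      rw [← Category.assoc, face3, pullback.lift_fst]
    rw [hN, thetaFam, map_theta _ hψ]
    have : ptComp X (face3 c X.str X.str X.zero) hψ (ptC X c) = X.law.one _ := by
      rw [← const_zero]
      apply Subtype.ext
      simp only [ptComp, schemeHomOverComp_coe, AbVar.const_coe, face3, ptC]
      rw [← Category.assoc, pullback.lift_snd, pullback.lift_snd,
        ← Category.assoc (pullback.snd c X.str), ← pullback.condition]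
    rw [this]
    exact theta_one_right hT _ _ _ M
  have hN0 : N = 0 := hCC c X.str X.str c0 X.zero X.zero N hface1 hface2 hface3
  -- pull back along `(c₁, b, d)`
  let g : S ⟶ pullback c (prodStr X.str X.str) :=
    pullback.lift (s ≫ c1.1) (pullback.lift b.1 d.1 (by rw [b.2, d.2]))
      (by rw [Category.assoc, c1.2, Category.comp_id, ← Category.assoc, pullback.lift_fst, b.2])
  have hg : g ≫ (pullback.fst c (prodStr X.str X.str) ≫ c) = s := by
    rw [← Category.assoc, pullback.lift_fst, Category.assoc, c1.2, Category.comp_id]
  have key : T.map g N = theta T X s (X.const s x) b d M := by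
    rw [hN, thetaFam, map_theta g hg]
    apply theta_congr
    · simp only [ptComp, schemeHomOverComp_coe, AbVar.const_coe, g]
      rw [← Category.assoc, pullback.lift_fst, Category.assoc, h1']
    · simp only [ptComp, schemeHomOverComp_coe, ptB, g]
      rw [← Category.assoc, pullback.lift_snd, pullback.lift_fst]
    · simp only [ptComp, schemeHomOverComp_coe, ptC, g]
      rw [← Category.assoc, pullback.lift_snd, pullback.lift_snd]
  rw [← key, hN0, map_zero]

/-- (G1) The theorem of the square from the theorem of the cube for curves. -/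
theorem squareK_of (hT : T.IsLocal) (hCC : CurveCube T K) (hCG : CurvesGenerate K)
    (hGI : GeomIntegral K) : SquareK T K := by
  intro X M x S s b c
  letI := X.law.pointGroup (𝟙 (Spec (CommRingCat.of K)))
  have hle : Subgroup.closure (curvePoints X) ≤ squareSubgroup hT X M :=
    (Subgroup.closure_le _).2 (curvePoints_subset hT hCC hGI X M)
  have htop : Subgroup.closure (curvePoints X) = ⊤ := hCG X
  rw [htop] at hle
  exact hle (Subgroup.mem_top x) s b c

end

end Fermat.Agent.S26.Cube
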