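import Fermat.Agent.S26.SpecPic
import Fermat.Prelude.Def_AlgebraicGeometry_RelativePicardFunctor
import Fermat.Prelude.Def_AlgebraicGeometry_RepresentsRelSubPic
import Fermat.Prelude.Def_AlgebraicGeometry_RelPicardAlgEquivZeroCut

/-!
# Row S26, block CUBE: frozen interface (sub-architect helper778)

Target of the block: `Stmt.Cube T K` (SpecPic.lean) for the Picard model `T` of block PIC.
Blueprint: `coord/S26-CUBE.md` (origin/helper778), refining `coord/S26.md` §6 (helper987).
The row-lead's `SpecCube.lean` freezes the same leaves in slightly different shapes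
(`Stmt.CurveCube`, `Stmt.CurvesGenerate`, `Stmt.LocalOnBase`, `Stmt.GenericTrivial`,
`Stmt.BaseChange`); `Cube/Official.lean` contains the adapters and the official `cube_of`.

Everything is written FUNCTORIALLY: `theta T X s a b c M` is the third difference of
`a ↦ a^* M` at three `S`-valued points of the abelian variety.  Products of schemes appear only in
* `CurveCube` (the theorem of the cube on `C × Y × Z`, `C` a curve: from S25 + rigidity),
* `SeesawLocal` (P4) and `GenericSpread` (P5), which block PIC proves for its model.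

Chain (all glue is formal and is proved in `Cube/Glue*.lean`):
```
CurveCube + CurvesGenerate + GeomIntegral                 ⇒ SquareK          (theorem of the square)
(∀ F, SquareK T F) + BaseChangeExists                     ⇒ SquareField      (… at field valued points)
SquareField + SeesawLocal + GenericSpread + Cover + GeomIntegral + Stmt.Integral ⇒ Stmt.Cube
S25 + ModDict + Rigidity (+ S25.H687 FAM)                 ⇒ CurveCube
```
Only definitions here.
-/

set_option autoImplicit false
universe u

open CategoryTheory CategoryTheory.Limits AlgebraicGeometry AlgebraicGeometry.RelPicard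
  NeronModelInfra GoodReductionJacobian

namespace Fermat.Agent.S26.Cube

noncomputable section

/-! ## Third differences -/

section Theta

variable {K : Type u} [Field K]

/-- The third difference
`(a+b+c)^*M - (a+b)^*M - (a+c)^*M - (b+c)^*M + a^*M + b^*M + c^*M` (the body of `Stmt.Cube`). -/
def theta (T : PicTheory.{u}) (X : AbVar K) {S : Scheme.{u}} (s : S ⟶ Spec (CommRingCat.of K))
    (a b c : SchemeHomOver s X.str) (M : T.Pic X.A) : T.Pic S :=
  T.map (X.law.mul s (X.law.mul s a b) c).1 M - T.map (X.law.mul s a b).1 M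
    - T.map (X.law.mul s a c).1 M - T.map (X.law.mul s b c).1 M
    + T.map a.1 M + T.map b.1 M + T.map c.1 M

end Theta

/-! ## Products over `Spec K` -/

section Prod

variable {K : Type u} [Field K]

/-- `φ × 1 : S' ×_K W ⟶ S ×_K W`. -/
def prodMap {S' S W : Scheme.{u}} (φ : S' ⟶ S) (s : S ⟶ Spec (CommRingCat.of K))
    (w : W ⟶ Spec (CommRingCat.of K)) : pullback (φ ≫ s) w ⟶ pullback s w :=
  pullback.map (φ ≫ s) w s w φ (𝟙 W) (𝟙 _) (by simp) (by simp)

/-- `(1, w₀) : S ⟶ S ×_K W` for a `K`-point `w₀` of `W`. -/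
def sectionAt {S W : Scheme.{u}} (s : S ⟶ Spec (CommRingCat.of K))
    (w : W ⟶ Spec (CommRingCat.of K)) (w0 : SchemeHomOver (𝟙 (Spec (CommRingCat.of K))) w) :
    S ⟶ pullback s w :=
  pullback.lift (𝟙 S) (s ≫ w0.1) (by rw [Category.assoc, w0.2, Category.comp_id, Category.id_comp])

/-- The structure map of `Y ×_K Z`. -/
abbrev prodStr {Y Z : Scheme.{u}} (y : Y ⟶ Spec (CommRingCat.of K))
    (z : Z ⟶ Spec (CommRingCat.of K)) : pullback y z ⟶ Spec (CommRingCat.of K) :=
  pullback.fst y z ≫ y

/-- The pair `(y₀, z₀)` as a `K`-point of `Y ×_K Z`. -/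
def pairPt {Y Z : Scheme.{u}} {y : Y ⟶ Spec (CommRingCat.of K)} {z : Z ⟶ Spec (CommRingCat.of K)}
    (y0 : SchemeHomOver (𝟙 (Spec (CommRingCat.of K))) y)
    (z0 : SchemeHomOver (𝟙 (Spec (CommRingCat.of K))) z) :
    SchemeHomOver (𝟙 (Spec (CommRingCat.of K))) (prodStr y z) :=
  ⟨pullback.lift y0.1 z0.1 (by rw [y0.2, z0.2]), by
    rw [← Category.assoc, pullback.lift_fst, y0.2]⟩

/-- The face `c₀ × Y × Z ⟶ C × (Y × Z)`. -/
def face1 {C Y Z : Scheme.{u}} (c : C ⟶ Spec (CommRingCat.of K))
    (y : Y ⟶ Spec (CommRingCat.of K)) (z : Z ⟶ Spec (CommRingCat.of K))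
    (c0 : SchemeHomOver (𝟙 (Spec (CommRingCat.of K))) c) :
    pullback y z ⟶ pullback c (prodStr y z) :=
  pullback.lift (prodStr y z ≫ c0.1) (𝟙 _)
    (by rw [Category.assoc, c0.2, Category.comp_id, Category.id_comp])

/-- The face `C × y₀ × Z ⟶ C × (Y × Z)`. -/
def face2 {C Y Z : Scheme.{u}} (c : C ⟶ Spec (CommRingCat.of K))
    (y : Y ⟶ Spec (CommRingCat.of K)) (z : Z ⟶ Spec (CommRingCat.of K))
    (y0 : SchemeHomOver (𝟙 (Spec (CommRingCat.of K))) y) :
    pullback c z ⟶ pullback c (prodStr y z) :=
  pullback.lift (pullback.fst c z)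
    (pullback.lift (pullback.snd c z ≫ z ≫ y0.1) (pullback.snd c z)
      (by rw [Category.assoc, Category.assoc, y0.2, Category.comp_id]))
    (by rw [← Category.assoc, pullback.lift_fst, Category.assoc, Category.assoc, y0.2,
      Category.comp_id, pullback.condition])

/-- The face `C × Y × z₀ ⟶ C × (Y × Z)`. -/
def face3 {C Y Z : Scheme.{u}} (c : C ⟶ Spec (CommRingCat.of K))
    (y : Y ⟶ Spec (CommRingCat.of K)) (z : Z ⟶ Spec (CommRingCat.of K))
    (z0 : SchemeHomOver (𝟙 (Spec (CommRingCat.of K))) z) :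
    pullback c y ⟶ pullback c (prodStr y z) :=
  pullback.lift (pullback.fst c y)
    (pullback.lift (pullback.snd c y) (pullback.snd c y ≫ y ≫ z0.1)
      (by rw [Category.assoc, Category.assoc, z0.2, Category.comp_id]))
    (by rw [← Category.assoc, pullback.lift_fst, pullback.condition])

end Prod

/-! ## The statements -/

section Stmts

variable (T : PicTheory.{u}) (K : Type u) [Field K] [IsAlgClosed K]

/-- **Theorem of the square** (strong form): third differences with one CONSTANT argument
vanish.  (`b = p₁, c = p₂` on `A × A`: `m^*P_x = p₁^*P_x + p₂^*P_x`, `P_x = T_x^*M - M`.) -/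
def SquareK : Prop :=
  ∀ (X : AbVar K) (M : T.Pic X.A) (x : X.Pt) {S : Scheme.{u}}
    (s : S ⟶ Spec (CommRingCat.of K)) (b c : SchemeHomOver s X.str),
    theta T X s (X.const s x) b c M = 0

/-- The theorem of the square at points with values in an algebraically closed field `F ⊇ K`. -/
def SquareField : Prop :=
  ∀ (X : AbVar K) (M : T.Pic X.A) (F : Type u) [Field F] [IsAlgClosed F]
    (ψ : Spec (CommRingCat.of F) ⟶ Spec (CommRingCat.of K)) (x : SchemeHomOver ψ X.str)
    {S : Scheme.{u}} (σ : S ⟶ Spec (CommRingCat.of F)) (b c : SchemeHomOver (σ ≫ ψ) X.str),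
    theta T X (σ ≫ ψ) (schemeHomOverComp σ rfl x) b c M = 0

/-- (P4) **Seesaw, local form**: a class on `S × W` (`W` proper, geometrically integral, with a
`K`-point) which is trivial on `U × W` for the members `U` of an open cover of `S` is pulled back
from `S`. -/
def SeesawLocal : Prop :=
  ∀ {S W : Scheme.{u}} (s : S ⟶ Spec (CommRingCat.of K)) (w : W ⟶ Spec (CommRingCat.of K))
    [IsProper w] [GeometricallyIntegral w]
    (w0 : SchemeHomOver (𝟙 (Spec (CommRingCat.of K))) w) (c : T.Pic (pullback s w)),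
    (∀ x : S, ∃ U : S.Opens, x ∈ U ∧ T.map (prodMap U.ι s w) c = 0) →
    c = T.map (pullback.fst s w) (T.map (sectionAt s w w0) c)

/-- (P5) **Generic triviality spreads out**: a class on `S × W` (`S` integral, locally of finite
type, `W` proper geometrically integral) which is trivial on `Spec F × W` for an algebraically
closed point `Spec F ⟶ S` over the generic point is trivial on `U × W` for a nonempty open
`U ⊆ S`.  (`= Stmt.GenericTrivial` of SpecCube.lean.) -/
def GenericSpread : Prop :=
  ∀ {S W : Scheme.{u}} [IsIntegral S] (s : S ⟶ Spec (CommRingCat.of K))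
    (w : W ⟶ Spec (CommRingCat.of K)) [LocallyOfFiniteType s] [IsProper w]
    [GeometricallyIntegral w]
    (c : T.Pic (pullback s w)) (F : Type u) [Field F] [IsAlgClosed F]
    (φ : Spec (CommRingCat.of F) ⟶ S), (∀ pt, φ pt = genericPoint S) →
    T.map (prodMap φ s w) c = 0 →
    ∃ U : S.Opens, (U : Set S).Nonempty ∧ T.map (prodMap U.ι s w) c = 0

/-- (C1) **Theorem of the cube on `C × Y × Z`, `C` a curve.** -/
def CurveCube : Prop :=
  ∀ {C Y Z : Scheme.{u}} (c : C ⟶ Spec (CommRingCat.of K)) (y : Y ⟶ Spec (CommRingCat.of K))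
    (z : Z ⟶ Spec (CommRingCat.of K))
    [IsProper c] [SmoothOfRelativeDimension 1 c] [IsIntegral C]
    [IsProper y] [GeometricallyIntegral y] [IsProper z] [GeometricallyIntegral z]
    (c0 : SchemeHomOver (𝟙 (Spec (CommRingCat.of K))) c)
    (y0 : SchemeHomOver (𝟙 (Spec (CommRingCat.of K))) y)
    (z0 : SchemeHomOver (𝟙 (Spec (CommRingCat.of K))) z)
    (N : T.Pic (pullback c (prodStr y z))),
    T.map (face1 c y z c0) N = 0 → T.map (face2 c y z y0) N = 0 →
    T.map (face3 c y z z0) N = 0 → N = 0

variable {K} in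
/-- The `K`-points of `A` lying on a pointed smooth proper integral curve through `0`. -/
def curvePoints (X : AbVar K) : Set X.Pt :=
  {x | ∃ (C : Scheme.{u}) (c : C ⟶ Spec (CommRingCat.of K)) (_ : IsProper c)
      (_ : SmoothOfRelativeDimension 1 c) (_ : IsIntegral C)
      (c0 c1 : SchemeHomOver (𝟙 (Spec (CommRingCat.of K))) c) (ι : SchemeHomOver c X.str),
      schemeHomOverComp c0.1 c0.2 ι = X.zero ∧ schemeHomOverComp c1.1 c1.2 ι = x}

/-- (C4) **Curves through `0` generate `A(K)`.** -/
def CurvesGenerate : Prop :=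
  ∀ X : AbVar K,
    @Subgroup.closure X.Pt (X.law.pointGroup (𝟙 (Spec (CommRingCat.of K)))) (curvePoints X) = ⊤

/-- Abelian varieties are geometrically integral (SOFT:INT + `K` algebraically closed). -/
def GeomIntegral : Prop :=
  ∀ X : AbVar K, GeometricallyIntegral X.str

/-- The translates of a nonempty open subset cover `A`. -/
def Cover : Prop :=
  ∀ (X : AbVar K) (U : X.A.Opens), (U : Set X.A).Nonempty →
    ∀ a : X.A, ∃ x : X.Pt, X.transl x a ∈ U

/-- Base change of an abelian variety along `K ⟶ F` (`K` algebraically closed): an abelian variety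
`X'` over `F` with a cartesian square `X'.A ⟶ X.A` over `Spec F ⟶ Spec K`, compatible with the
group laws. -/
def BaseChangeExists : Prop :=
  ∀ (X : AbVar K) (F : Type u) [Field F]
    (ψ : Spec (CommRingCat.of F) ⟶ Spec (CommRingCat.of K)),
    ∃ (X' : AbVar F) (π : X'.A ⟶ X.A) (hπ : π ≫ X.str = X'.str ≫ ψ),
      IsPullback π X'.str X.str ψ ∧
      ∀ {S : Scheme.{u}} (σ : S ⟶ Spec (CommRingCat.of F)) (a b : SchemeHomOver σ X'.str),
        (X'.law.mul σ a b).1 ≫ π =
          (X.law.mul (σ ≫ ψ) ⟨a.1 ≫ π, by rw [Category.assoc, hπ, ← Category.assoc, a.2]⟩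
            ⟨b.1 ≫ π, by rw [Category.assoc, hπ, ← Category.assoc, b.2]⟩).1

/-- (C0) **Rigidity**: a morphism `Y × Z ⟶ J` (`Y` proper geometrically integral, `Z` integral
and locally of finite type, `J` separated over `K`, `K` algebraically closed) which is constant on
`Y × z₀` and on `y₀ × Z` is constant. -/
def Rigidity : Prop :=
  ∀ {Y Z J : Scheme.{u}} (y : Y ⟶ Spec (CommRingCat.of K)) (z : Z ⟶ Spec (CommRingCat.of K))
    (j : J ⟶ Spec (CommRingCat.of K)) [IsProper y] [GeometricallyIntegral y]
    [LocallyOfFiniteType z] [GeometricallyIntegral z] [IsSeparated j]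
    (y0 : SchemeHomOver (𝟙 (Spec (CommRingCat.of K))) y)
    (z0 : SchemeHomOver (𝟙 (Spec (CommRingCat.of K))) z)
    (j0 : SchemeHomOver (𝟙 (Spec (CommRingCat.of K))) j)
    (φ : pullback y z ⟶ J), φ ≫ j = prodStr y z →
    pullback.lift (𝟙 Y) (y ≫ z0.1)
        (by rw [Category.assoc, z0.2, Category.comp_id, Category.id_comp]) ≫ φ = y ≫ j0.1 →
    pullback.lift (z ≫ y0.1) (𝟙 Z)
        (by rw [Category.assoc, y0.2, Category.comp_id, Category.id_comp]) ≫ φ = z ≫ j0.1 →
    φ = prodStr y z ≫ j0.1

end Stmts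

/-! ## The dictionary with invertible sheaves of modules (input of `CurveCube`, from block PIC) -/

/-- The class map from invertible `Scheme.Modules` to the Picard functor `T`
(no compatibility with tensor products is needed by block CUBE). -/
structure ModDict (T : PicTheory.{u}) where
  /-- the class of an invertible module -/
  cl : ∀ {X : Scheme.{u}} (L : X.Modules), Scheme.Modules.IsInvertible L → T.Pic X
  cl_surj : ∀ {X : Scheme.{u}} (c : T.Pic X),
    ∃ (L : X.Modules) (hL : Scheme.Modules.IsInvertible L), cl L hL = c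
  cl_eq_iff : ∀ {X : Scheme.{u}} (L L' : X.Modules) (hL : Scheme.Modules.IsInvertible L)
    (hL' : Scheme.Modules.IsInvertible L'), cl L hL = cl L' hL' ↔ Nonempty (L ≅ L')
  cl_unit : ∀ X : Scheme.{u},
    cl (SheafOfModules.unit X.ringCatSheaf) (Scheme.Modules.isInvertible_unit X) = 0
  cl_pullback : ∀ {X Y : Scheme.{u}} (f : X ⟶ Y) (L : Y.Modules)
    (hL : Scheme.Modules.IsInvertible L),
    cl ((Scheme.Modules.pullback f).obj L) (hL.pullback f) = T.map f (cl L hL)

/-- The frozen statement S25 (existence of Jacobians), as a hypothesis. -/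
def S25Statement : Prop :=
  ∀ (k : Type u) [Field k] [IsAlgClosed k] {C : Scheme.{u}} (c : C ⟶ Spec (CommRingCat.of k))
    [IsProper c] [SmoothOfRelativeDimension 1 c] [IsIntegral C]
    (ε : SchemeHomOver (𝟙 (Spec (CommRingCat.of k))) c),
    ∃ D : RelativePic0Designation k c,
      Nonempty (RepresentsRelSubPic c ε (algEquivZeroCut c ε) D) ∧
        Smooth D.toBase ∧ IsProper D.toBase ∧ GeometricallyConnected D.toBase

end

end Fermat.Agent.S26.Cube
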